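import Mathlib.Tactic
import Fermat.Prelude.Def_GaloisRep_Adic

/-!
# Adic Galois representations as matrices

Two-dimensional adic representations of the Galois group of `ℚ` described by continuous matrix
representations, with conjugation and change of coefficients.
-/

set_option autoImplicit false

noncomputable section

namespace Fermat.Agent.Deform

open IsLocalRing Module

/-- The absolute Galois group of `ℚ`, as used in the Prelude. -/
abbrev Gal : Type := AlgebraicClosure ℚ ≃ₐ[ℚ] AlgebraicClosure ℚ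

/-- Two by two matrices. -/
abbrev M2 (A : Type) : Type := Matrix (Fin 2) (Fin 2) A

variable {A B : Type} [CommRing A] [CommRing B]

/-- Push a matrix representation along a ring homomorphism. -/
def mapM (φ : A →+* B) (r : Gal →* M2 A) : Gal →* M2 B :=
  (φ.mapMatrix.toMonoidHom).comp r

/-- `mapM φ r` applies `φ` to the entries. -/
@[simp]
theorem mapM_apply (φ : A →+* B) (r : Gal →* M2 A) (σ : Gal) (i j : Fin 2) :
    mapM φ r σ i j = φ (r σ i j) := rfl

/-- Mapping the entries twice is mapping them by the composite. -/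
theorem mapM_mapM {C : Type} [CommRing C] (φ : A →+* B) (ψ : B →+* C) (r : Gal →* M2 A) :
    mapM ψ (mapM φ r) = mapM (ψ.comp φ) r := by
  ext σ i j; rfl

/-- Adic continuity of a matrix representation. -/
def IsCont [IsLocalRing A] (r : Gal →* M2 A) : Prop :=
  ∀ n : ℕ, ∃ L : IntermediateField ℚ (AlgebraicClosure ℚ), FiniteDimensional ℚ L ∧
    ∀ σ : Gal, (∀ x ∈ L, σ x = x) → ∀ i j, r σ i j - (1 : M2 A) i j ∈ maximalIdeal A ^ n

/-- A representation factoring through a finite level is continuous. -/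
theorem isCont_of_finiteLevel [IsLocalRing A] {r : Gal →* M2 A}
    (h : GaloisFactorsThroughFiniteLevel r) : IsCont r := by
  obtain ⟨L, hL, h1⟩ := h
  exact fun n => ⟨L, hL, fun σ hσ i j => by simp [h1 σ hσ]⟩

/-- A continuous representation over an algebra with nilpotent maximal ideal factors through a
finite level. -/
theorem IsCont.finiteLevel [IsLocalRing A] {r : Gal →* M2 A} (hr : IsCont r) {n : ℕ}
    (hn : maximalIdeal A ^ n = ⊥) : GaloisFactorsThroughFiniteLevel r := by
  obtain ⟨L, hL, h1⟩ := hr n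
  refine ⟨L, hL, fun σ hσ => ?_⟩
  ext i j
  have := h1 σ hσ i j
  rwa [hn, Ideal.mem_bot, sub_eq_zero] at this

/-- Continuity of a matrix representation is preserved by local homomorphisms. -/
theorem IsCont.map [IsLocalRing A] [IsLocalRing B] {r : Gal →* M2 A} (hr : IsCont r)
    (φ : A →+* B) (hφ : IsLocalHom φ) : IsCont (mapM φ r) := by
  intro n
  obtain ⟨L, hL, h1⟩ := hr n
  refine ⟨L, hL, fun σ hσ i j => ?_⟩
  have hmap : (maximalIdeal A ^ n).map φ ≤ maximalIdeal B ^ n := by
    rw [Ideal.map_pow]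
    exact Ideal.pow_right_mono (Ideal.map_le_iff_le_comap.mpr fun a ha =>
      Ideal.mem_comap.mpr (haveI := hφ; map_nonunit φ a ha)) n
  have h2 := hmap (Ideal.mem_map_of_mem φ (h1 σ hσ i j))
  rw [map_sub] at h2
  convert h2 using 2
  · rfl
  · by_cases hij : i = j
    · subst hij; simp
    · simp [hij]

/-- The representation on `Fin 2 → A` given by a matrix representation. -/
def toRep [IsLocalRing A] (r : Gal →* M2 A) (hr : IsCont r) : GaloisRepAdic A where
  V := Fin 2 → A
  finrank_eq := by rw [Module.finrank_fintype_fun_eq_card, Fintype.card_fin]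
  ρ := (Matrix.toLinAlgEquiv' : M2 A ≃ₐ[A] _).toMonoidHom.comp r
  isAdicContinuous := by
    intro n
    obtain ⟨L, hL, h1⟩ := hr n
    refine ⟨L, hL, fun σ hσ v => ?_⟩
    have key : (Matrix.toLinAlgEquiv' (r σ)) v - v = ((r σ) - 1).mulVec v := by
      rw [Matrix.sub_mulVec, Matrix.one_mulVec]; rfl
    show (Matrix.toLinAlgEquiv' (r σ)) v - v ∈ _
    rw [key, pi_eq_sum_univ' (((r σ) - 1).mulVec v)]
    refine Submodule.sum_mem _ fun i _ => ?_
    refine Submodule.smul_mem_smul ?_ Submodule.mem_top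
    simp only [Matrix.mulVec, dotProduct, Matrix.sub_apply]
    exact Ideal.sum_mem _ fun j _ => Ideal.mul_mem_right _ _ (h1 σ hσ i j)

/-- The matrices of a representation in a basis. -/
def matOf [IsLocalRing A] (ρ : GaloisRepAdic A) (b : Basis (Fin 2) A ρ.V) : Gal →* M2 A :=
  (LinearMap.toMatrixAlgEquiv b).toMonoidHom.comp ρ.ρ

/-- The entries of `matOf` are the coordinates of the images of the basis vectors. -/
theorem matOf_apply [IsLocalRing A] (ρ : GaloisRepAdic A) (b : Basis (Fin 2) A ρ.V) (σ : Gal)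
    (i j : Fin 2) : matOf ρ b σ i j = b.repr (ρ.ρ σ (b j)) i := by
  simp [matOf, LinearMap.toMatrixAlgEquiv_apply]

/-- The matrices of an adic representation in a basis are continuous. -/
theorem isCont_matOf [IsLocalRing A] (ρ : GaloisRepAdic A) (b : Basis (Fin 2) A ρ.V) :
    IsCont (matOf ρ b) := by
  intro n
  obtain ⟨L, hL, h1⟩ := ρ.isAdicContinuous n
  refine ⟨L, hL, fun σ hσ i j => ?_⟩
  have h2 : b.repr (ρ.ρ σ (b j) - b j) i ∈ maximalIdeal A ^ n := by
    refine Submodule.smul_induction_on (p := fun x => b.repr x i ∈ maximalIdeal A ^ n)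
      (h1 σ hσ (b j)) ?_ ?_
    · intro a ha x _
      rw [map_smul, Finsupp.smul_apply, smul_eq_mul]
      exact Ideal.mul_mem_right _ _ ha
    · intro x y hx hy
      rw [map_add, Finsupp.add_apply]
      exact add_mem hx hy
  rw [map_sub, Finsupp.sub_apply, b.repr_self, ← matOf_apply ρ b σ i j] at h2
  convert h2 using 2
  by_cases hij : i = j
  · subst hij; simp
  · simp [hij]

/-- An adic representation is equivalent to the one of its matrices in a basis. -/
theorem isEquiv_toRep_matOf [IsLocalRing A] (ρ : GaloisRepAdic A) (b : Basis (Fin 2) A ρ.V) :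
    ρ.IsEquiv (toRep (matOf ρ b) (isCont_matOf ρ b)) := by
  refine ⟨⟨b.equivFun, fun σ x => ?_⟩⟩
  show b.equivFun (ρ.ρ σ x) = Matrix.toLinAlgEquiv' (matOf ρ b σ) (b.equivFun x)
  rw [Matrix.toLinAlgEquiv'_apply]
  exact (LinearMap.toMatrix_mulVec_repr b b (ρ.ρ σ) x).symm

/-- Equivalence of adic representations is transitive. -/
theorem isEquiv_trans [IsLocalRing A] {a b c : GaloisRepAdic A} :
    a.IsEquiv b → b.IsEquiv c → a.IsEquiv c :=
  fun ⟨e⟩ ⟨e'⟩ => ⟨e.trans e'⟩

/-- Equivalence of adic representations is symmetric. -/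
theorem isEquiv_symm [IsLocalRing A] {a b : GaloisRepAdic A} : a.IsEquiv b → b.IsEquiv a :=
  fun ⟨e⟩ => ⟨e.symm⟩

/-- Equivalence of adic representations is reflexive. -/
theorem isEquiv_refl [IsLocalRing A] (a : GaloisRepAdic A) : a.IsEquiv a :=
  ⟨GaloisRepAdic.Equiv.refl a⟩

/-- Equal matrix representations give equivalent adic representations. -/
theorem isEquiv_toRep_congr [IsLocalRing A] {r r' : Gal →* M2 A} (h : r = r') (hr : IsCont r)
    (hr' : IsCont r') : (toRep r hr).IsEquiv (toRep r' hr') := by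
  subst h; exact isEquiv_refl _

/-- Equivalent matrix representations are conjugate. -/
theorem exists_conj_of_isEquiv [IsLocalRing A] {r r' : Gal →* M2 A} {hr : IsCont r}
    {hr' : IsCont r'} (h : (toRep r hr).IsEquiv (toRep r' hr')) :
    ∃ P : M2 A, IsUnit P ∧ ∀ σ, P * r σ = r' σ * P := by
  obtain ⟨e⟩ := h
  let f : (Fin 2 → A) ≃ₗ[A] (Fin 2 → A) := e.toLinearEquiv
  refine ⟨LinearMap.toMatrixAlgEquiv' (f : (Fin 2 → A) →ₗ[A] (Fin 2 → A)), ?_, fun σ => ?_⟩
  · refine IsUnit.map _ ?_
    exact (Module.End.isUnit_iff _).mpr f.bijective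
  · apply (Matrix.toLinAlgEquiv' : M2 A ≃ₐ[A] _).injective
    rw [map_mul, map_mul, Matrix.toLinAlgEquiv'_toMatrixAlgEquiv']
    exact LinearMap.ext fun v => e.map_apply σ v

/-- Conjugate a matrix representation by an invertible matrix: `σ ↦ P⁻¹ r(σ) P`. -/
def conjM (P : (M2 A)ˣ) (r : Gal →* M2 A) : Gal →* M2 A where
  toFun σ := (↑P⁻¹ : M2 A) * r σ * P
  map_one' := by simp
  map_mul' σ τ := by
    rw [map_mul]
    simp only [mul_assoc, Units.mul_inv_cancel_left]

/-- `conjM P r σ` is `P⁻¹ * r σ * P`. -/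
theorem conjM_apply (P : (M2 A)ˣ) (r : Gal →* M2 A) (σ : Gal) :
    conjM P r σ = (↑P⁻¹ : M2 A) * r σ * P := rfl

/-- Conjugation preserves continuity. -/
theorem IsCont.conj [IsLocalRing A] {r : Gal →* M2 A} (hr : IsCont r) (P : (M2 A)ˣ) :
    IsCont (conjM P r) := by
  intro n
  obtain ⟨L, hL, h1⟩ := hr n
  refine ⟨L, hL, fun σ hσ i j => ?_⟩
  have key : conjM P r σ - 1 = (↑P⁻¹ : M2 A) * (r σ - 1) * P := by
    rw [mul_sub, sub_mul, mul_one, Units.inv_mul, conjM_apply]
  show (conjM P r σ - 1) i j ∈ _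
  rw [key, Matrix.mul_apply]
  refine Ideal.sum_mem _ fun l _ => Ideal.mul_mem_right _ _ ?_
  rw [Matrix.mul_apply]
  exact Ideal.sum_mem _ fun m _ => Ideal.mul_mem_left _ _ (h1 σ hσ m l)

/-- Conjugate matrix representations give equivalent adic representations. -/
theorem isEquiv_conj [IsLocalRing A] {r : Gal →* M2 A} (hr : IsCont r) (P : (M2 A)ˣ) :
    (toRep r hr).IsEquiv (toRep (conjM P r) (hr.conj P)) := by
  let u : (Module.End A (Fin 2 → A))ˣ :=
    Units.map (Matrix.toLinAlgEquiv' : M2 A ≃ₐ[A] _).toMonoidHom P⁻¹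
  refine ⟨⟨LinearMap.GeneralLinearGroup.generalLinearEquiv A (Fin 2 → A) u, fun σ x => ?_⟩⟩
  revert x
  show ∀ x : Fin 2 → A, Matrix.toLinAlgEquiv' (↑P⁻¹ : M2 A) (Matrix.toLinAlgEquiv' (r σ) x) =
    Matrix.toLinAlgEquiv' ((↑P⁻¹ : M2 A) * r σ * (P : M2 A))
      (Matrix.toLinAlgEquiv' (↑P⁻¹ : M2 A) x)
  intro x
  rw [← Module.End.mul_apply, ← map_mul, ← Module.End.mul_apply, ← map_mul, mul_assoc,
    mul_assoc, Units.mul_inv, mul_one]

/-- Matrices of a base change. -/
theorem matOf_baseChangeAlong [IsLocalRing A] [IsLocalRing B] (φ : A →+* B) (hφ : IsLocalHom φ)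
    (ρ : GaloisRepAdic A) (b : Basis (Fin 2) A ρ.V) :
    letI := φ.toAlgebra
    matOf (ρ.baseChangeAlong φ hφ) (b.baseChange B) = mapM φ (matOf ρ b) := by
  let := φ.toAlgebra
  ext σ i j
  show LinearMap.toMatrixAlgEquiv (b.baseChange B) ((ρ.ρ σ).baseChange B) i j = _
  rw [LinearMap.toMatrixAlgEquiv_apply, Basis.baseChange_apply, LinearMap.baseChange_tmul,
    Basis.baseChange_repr_tmul, mapM_apply, matOf_apply, Algebra.smul_def, mul_one]
  rfl

/-- Base change of an adic representation corresponds to mapping the entries of its matrices. -/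
theorem isEquiv_baseChangeAlong_matOf [IsLocalRing A] [IsLocalRing B] (φ : A →+* B)
    (hφ : IsLocalHom φ) (ρ : GaloisRepAdic A) (b : Basis (Fin 2) A ρ.V) :
    (ρ.baseChangeAlong φ hφ).IsEquiv
      (toRep (mapM φ (matOf ρ b)) ((isCont_matOf ρ b).map φ hφ)) := by
  let := φ.toAlgebra
  exact isEquiv_trans (isEquiv_toRep_matOf (ρ.baseChangeAlong φ hφ) (b.baseChange B))
    (isEquiv_toRep_congr (matOf_baseChangeAlong φ hφ ρ b) _ _)

/-- The matrices of the representation built from matrices are these matrices. -/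
theorem matOf_toRep [IsLocalRing A] (r : Gal →* M2 A) (hr : IsCont r) :
    matOf (toRep r hr) (Pi.basisFun A (Fin 2)) = r := by
  ext σ i j
  show LinearMap.toMatrixAlgEquiv (Pi.basisFun A (Fin 2)) (Matrix.toLinAlgEquiv' (r σ)) i j = _
  rw [LinearMap.toMatrixAlgEquiv_apply]
  show (Pi.basisFun A (Fin 2)).repr (Matrix.toLinAlgEquiv' (r σ) (Pi.basisFun A (Fin 2) j)) i = _
  rw [Pi.basisFun_repr, Matrix.toLinAlgEquiv'_apply, Pi.basisFun_apply, Matrix.mulVec_single_one]
  rfl

/-- Base change of the representation built from matrices maps their entries. -/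
theorem isEquiv_baseChangeAlong_toRep [IsLocalRing A] [IsLocalRing B] (φ : A →+* B)
    (hφ : IsLocalHom φ) (r : Gal →* M2 A) (hr : IsCont r) :
    ((toRep r hr).baseChangeAlong φ hφ).IsEquiv (toRep (mapM φ r) (hr.map φ hφ)) :=
  isEquiv_trans (isEquiv_baseChangeAlong_matOf φ hφ (toRep r hr) (Pi.basisFun A (Fin 2)))
    (isEquiv_toRep_congr (congrArg _ (matOf_toRep r hr)) _ _)

end Fermat.Agent.Deform
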