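import Fermat.Agent.Deform.Basic
import Fermat.Agent.Deform.Burnside

/-!
# Rigidifying data

Residual representations in terms of matrices, and the construction of the rigidifying data of
an absolutely irreducible residual representation (`exists_rigid`).
-/

set_option autoImplicit false

noncomputable section

namespace Fermat.Agent.Deform

open IsLocalRing Module
open scoped TensorProduct

section Field

variable {k : Type} [Field k]

/-- Matrices of a residual representation in a basis. -/
def matRes (ρ : ResidualGaloisRep k) (b : Basis (Fin 2) k ρ.V) : Gal →* M2 k :=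
  (LinearMap.toMatrixAlgEquiv b).toMonoidHom.comp ρ.ρ

/-- The entries of `matRes` are the coordinates of the images of the basis vectors. -/
theorem matRes_apply (ρ : ResidualGaloisRep k) (b : Basis (Fin 2) k ρ.V) (σ : Gal) (i j : Fin 2) :
    matRes ρ b σ i j = b.repr (ρ.ρ σ (b j)) i :=
  LinearMap.toMatrixAlgEquiv_apply b (ρ.ρ σ) i j

theorem matRes_eq_of_equiv {ρ ρ' : ResidualGaloisRep k} (e : ResidualGaloisRep.Equiv ρ ρ')
    (b : Basis (Fin 2) k ρ.V) : matRes ρ' (b.map e.toLinearEquiv) = matRes ρ b := by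
  ext σ i j
  rw [matRes_apply, matRes_apply, Basis.map_apply, ← e.map_apply]
  simp [Basis.map_repr]

theorem isEquiv_of_matRes_eq {ρ ρ' : ResidualGaloisRep k} (b : Basis (Fin 2) k ρ.V)
    (b' : Basis (Fin 2) k ρ'.V) (h : matRes ρ b = matRes ρ' b') : ρ.IsEquiv ρ' := by
  refine ⟨⟨b.equiv b' (Equiv.refl _), fun σ x => ?_⟩⟩
  show ((b.equiv b' (Equiv.refl _) : ρ.V →ₗ[k] ρ'.V).comp (ρ.ρ σ)) x =
    ((ρ'.ρ σ).comp (b.equiv b' (Equiv.refl _) : ρ.V →ₗ[k] ρ'.V)) x
  congr 1
  refine b.ext fun j => ?_
  apply b'.repr.injective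
  ext i
  have h1 := congr_fun (congr_fun (DFunLike.congr_fun h σ) i) j
  rw [matRes_apply, matRes_apply] at h1
  have hb : ∀ y, b'.repr (b.equiv b' (Equiv.refl _) y) i = b.repr y i := by
    intro y
    simp [Basis.equiv]
  simp only [LinearMap.comp_apply, LinearEquiv.coe_coe, Basis.equiv_apply, Equiv.refl_apply, hb]
  exact h1

theorem matRes_baseChangeAlong {k' : Type} [Field k'] (φ : k →+* k') (ρ : ResidualGaloisRep k)
    (b : Basis (Fin 2) k ρ.V) :
    letI := φ.toAlgebra
    matRes (ρ.baseChangeAlong φ) (b.baseChange k') = mapM φ (matRes ρ b) := by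
  let := φ.toAlgebra
  ext σ i j
  show LinearMap.toMatrixAlgEquiv (b.baseChange k') ((ρ.ρ σ).baseChange k') i j = _
  rw [LinearMap.toMatrixAlgEquiv_apply, Basis.baseChange_apply, LinearMap.baseChange_tmul,
    Basis.baseChange_repr_tmul, mapM_apply, matRes_apply, Algebra.smul_def, mul_one]
  rfl

end Field

section Adic

variable {A : Type} [CommRing A] [IsLocalRing A]

/-- The residual matrices are the matrices of the representation modulo the maximal ideal. -/
theorem matRes_residual (ρ : GaloisRepAdic A) (b : Basis (Fin 2) A ρ.V) :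
    matRes ρ.residual (b.baseChange (ResidueField A)) = mapM (residue A) (matOf ρ b) := by
  ext σ i j
  show LinearMap.toMatrixAlgEquiv (b.baseChange (ResidueField A))
    ((ρ.ρ σ).baseChange (ResidueField A)) i j = _
  rw [LinearMap.toMatrixAlgEquiv_apply, Basis.baseChange_apply, LinearMap.baseChange_tmul,
    Basis.baseChange_repr_tmul, mapM_apply, matOf_apply, Algebra.smul_def, mul_one]
  rfl

theorem exists_tmul_one_eq (ρ : GaloisRepAdic A) (y : ρ.residual.V) :
    ∃ v : ρ.V, (1 : ResidueField A) ⊗ₜ[A] v = y := by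
  revert y
  show ∀ y : ResidueField A ⊗[A] ρ.V, _
  intro y
  induction y using TensorProduct.induction_on with
  | zero => exact ⟨0, TensorProduct.tmul_zero _ _⟩
  | tmul c v =>
    obtain ⟨a, rfl⟩ := residue_surjective c
    refine ⟨a • v, ?_⟩
    rw [TensorProduct.tmul_smul, TensorProduct.smul_tmul', Algebra.smul_def, mul_one]
    rfl
  | add x y hx hy =>
    obtain ⟨v, hv⟩ := hx
    obtain ⟨w, hw⟩ := hy
    exact ⟨v + w, by rw [TensorProduct.tmul_add, hv, hw]⟩

theorem exists_basis_lift (ρ : GaloisRepAdic A) (b' : Basis (Fin 2) (ResidueField A) ρ.residual.V) :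
    ∃ b : Basis (Fin 2) A ρ.V, b.baseChange (ResidueField A) = b' := by
  classical
  choose v hv using fun i => exists_tmul_one_eq ρ (b' i)
  let b0 : Basis (Fin 2) A ρ.V := Module.finBasisOfFinrankEq A ρ.V ρ.finrank_eq
  have hP : IsUnit (b0.det v) := by
    suffices H : ∀ c' : Basis (Fin 2) (ResidueField A) (ResidueField A ⊗[A] ρ.V),
        (∀ i, (1 : ResidueField A) ⊗ₜ[A] v i = c' i) → IsUnit (b0.det v) from H b' hv
    clear hv b'
    intro b' hv
    have h1 : IsUnit ((b0.baseChange (ResidueField A)).det b') :=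
      ((b0.baseChange (ResidueField A)).is_basis_iff_det).mp ⟨b'.linearIndependent, b'.span_eq⟩
    have h2 : residue A (b0.det v) = (b0.baseChange (ResidueField A)).det b' := by
      rw [Basis.det_apply, Basis.det_apply, RingHom.map_det]
      congr 1
      ext i j
      rw [RingHom.mapMatrix_apply, Matrix.map_apply, Basis.toMatrix_apply, Basis.toMatrix_apply,
        ← hv j, Basis.baseChange_repr_tmul, Algebra.smul_def, mul_one]
      rfl
    exact (isUnit_map_iff (residue A) _).mp (h2 ▸ h1)
  obtain ⟨hli, hsp⟩ := b0.is_basis_iff_det.mpr hP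
  refine ⟨Basis.mk hli hsp.ge, ?_⟩
  apply Basis.eq_of_apply_eq
  intro i
  rw [Basis.baseChange_apply, Basis.mk_apply]
  exact hv i

end Adic

variable {𝒪 : Type} [CommRing 𝒪] [IsLocalRing 𝒪]
variable {A : Type} [CommRing A] [IsLocalRing A] [Algebra 𝒪 A]
variable {W : Rigid 𝒪} {ρbar : ResidualGaloisRep (ResidueField 𝒪)}
variable {bb : Basis (Fin 2) (ResidueField 𝒪) ρbar.V}

theorem lifts_iff (h : IsResAlg 𝒪 A) (r : Gal →* M2 A) :
    haveI := h.isLocalHom
    Lifts W h r ↔ mapM (residue A) r = mapM (ResidueField.map (algebraMap 𝒪 A)) W.rb := by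
  have := h.isLocalHom
  constructor
  · intro hr
    ext σ i j
    rw [mapM_apply, mapM_apply, ← hr σ i j, map_augment]
  · intro hr σ i j
    apply (ResidueField.map (algebraMap 𝒪 A)).injective
    rw [map_augment]
    exact congr_fun (congr_fun (DFunLike.congr_fun hr σ) i) j

/-- A representation with the given residual one has a basis in which its matrices are lifts. -/
theorem exists_lifts_basis (hW : W.rb = matRes ρbar bb) (h : IsResAlg 𝒪 A)
    [IsLocalHom (algebraMap 𝒪 A)] (ρ : GaloisRepAdic A)
    (he : ρ.residual.IsEquiv (ρbar.baseChangeAlong (ResidueField.map (algebraMap 𝒪 A)))) :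
    ∃ b : Basis (Fin 2) A ρ.V, Lifts W h (matOf ρ b) := by
  obtain ⟨e⟩ := he
  let := (ResidueField.map (algebraMap 𝒪 A)).toAlgebra
  let b' : Basis (Fin 2) (ResidueField A) ρ.residual.V :=
    (bb.baseChange (ResidueField A)).map e.symm.toLinearEquiv
  obtain ⟨b, hb⟩ := exists_basis_lift ρ b'
  refine ⟨b, (lifts_iff h _).mpr ?_⟩
  rw [← matRes_residual ρ b, hb, hW, ← matRes_baseChangeAlong]
  exact matRes_eq_of_equiv e.symm _

/-- A representation whose matrices are lifts has the given residual representation. -/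
theorem residual_isEquiv_of_lifts (hW : W.rb = matRes ρbar bb) (h : IsResAlg 𝒪 A)
    [IsLocalHom (algebraMap 𝒪 A)] (ρ : GaloisRepAdic A) (b : Basis (Fin 2) A ρ.V)
    (hl : Lifts W h (matOf ρ b)) :
    ρ.residual.IsEquiv (ρbar.baseChangeAlong (ResidueField.map (algebraMap 𝒪 A))) := by
  let := (ResidueField.map (algebraMap 𝒪 A)).toAlgebra
  refine isEquiv_of_matRes_eq (b.baseChange (ResidueField A)) (bb.baseChange (ResidueField A)) ?_
  rw [matRes_residual, (lifts_iff h _).mp hl, hW]
  exact (matRes_baseChangeAlong (ResidueField.map (algebraMap 𝒪 A)) ρbar bb).symm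

/-- Rigidifying data exists for an absolutely irreducible representation. -/
theorem exists_rigid (ρbar : ResidualGaloisRep (ResidueField 𝒪))
    (habs : ρbar.IsAbsolutelyIrreducible) (bb : Basis (Fin 2) (ResidueField 𝒪) ρbar.V) :
    ∃ W : Rigid 𝒪, W.rb = matRes ρbar bb := by
  have key : ∀ M : M2 (ResidueField 𝒪),
      ∃ c : Gal →₀ 𝒪, (c.sum fun σ o => o • matRes ρbar bb σ) = M := by
    intro M
    have hM : M ∈ Submodule.span (ResidueField 𝒪) (Set.range (matRes ρbar bb)) := by
      have := span_matrix_eq_top ρbar habs bb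
      exact (SetLike.ext_iff.mp this M).mpr Submodule.mem_top
    obtain ⟨c, hc⟩ := (Finsupp.mem_span_range_iff_exists_finsupp).mp hM
    choose s hs using fun x : ResidueField 𝒪 => residue_surjective (R := 𝒪) x
    let s' : ResidueField 𝒪 → 𝒪 := fun x => by classical exact if x = 0 then 0 else s x
    have hs' : ∀ x, residue 𝒪 (s' x) = x := by
      intro x
      by_cases hx : x = 0
      · simp [s', hx]
      · simp [s', hx, hs]
    refine ⟨c.mapRange s' (by simp [s']), ?_⟩
    rw [Finsupp.sum_mapRange_index (by simp), ← hc]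
    refine Finsupp.sum_congr fun σ _ => ?_
    rw [← IsScalarTower.algebraMap_smul (ResidueField 𝒪) (s' (c σ)), ResidueField.algebraMap_eq,
      hs']
  obtain ⟨cX, hX⟩ := key (Matrix.single 0 0 1)
  obtain ⟨cY, hY⟩ := key (Matrix.single 1 0 1)
  exact ⟨⟨matRes ρbar bb, cX, cY, hX, hY⟩, rfl⟩

end Fermat.Agent.Deform
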