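import Fermat.Agent.Deform.Main
import Fermat.Agent.Deform.Tower
import Fermat.Prelude.Def_GaloisRep_DeformationRingData

/-!
# The universal deformation ring

`exists_deformationRingData`: over a complete discrete valuation ring with finite residue field, an
absolutely irreducible residual representation has a universal deformation ring for every
deformation condition which it satisfies and whose tangent space is finite. It is the statement of
`S53`. The proof:

1. Absolute irreducibility gives rigidifying data `W`: every lift is conjugate to exactly one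
   normalised lift (`Deform/Residual`, `Deform/Basic`).
2. At each finite level there is a universal normalised deformation of type `𝒟`, as the finite
   tangent space bounds the size of the coefficient algebras (`Deform/Main`, `Deform/Bound`).
3. They form a tower, with surjective transition maps whose kernels lie in the powers of the
   maximal ideal (`mem_pow_of_apply_eq_zero`); its limit is a complete Noetherian local algebra
   (`Deform/Tower`).
4. The compatible matrices give a normalised deformation over the limit, of type `𝒟` as all its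
   levels are (`cond_of_proj`).
5. For a deformation over a complete algebra `A` the maps from the levels to the `A ⧸ 𝔪 ^ (n + 1)`
   glue to a local map out of the limit (`exists_algHom_mapM_eq`), which is unique, as a deformation
   has one normalised form and the entries generate every level (`eq_of_mapM_eq`).

## References

* B. Mazur, *Deforming Galois representations* (1989).
* B. de Smit, H. W. Lenstra, *Explicit construction of universal deformation rings* (1997).

Schlessinger's criterion is not used: normalised lifts have universal objects at each finite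
level, and the ring is their limit.
-/

set_option autoImplicit false

noncomputable section

namespace Fermat.Agent.Deform

open IsLocalRing Module

variable {𝒪 : Type} [CommRing 𝒪] [IsLocalRing 𝒪] {T : Tower 𝒪}

/-! ## Representations on the limit of a tower -/

/-- The limit of a compatible family of matrix representations along a tower. -/
private def limRep (r : ∀ n, Gal →* M2 (T.obj n))
    (hr : ∀ n, mapM (T.tr n : T.obj (n + 1) →+* T.obj n) (r (n + 1)) = r n) : Gal →* M2 T.lim where
  toFun σ := Matrix.of fun i j =>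
    ⟨fun n => r n σ i j, fun n => congr_fun (congr_fun (DFunLike.congr_fun (hr n) σ) i) j⟩
  map_one' := by
    refine Matrix.ext fun i j => Tower.ext_proj fun n => ?_
    show r n 1 i j = T.proj n ((1 : M2 T.lim) i j)
    rw [map_one]
    by_cases hij : i = j
    · subst hij; rw [Matrix.one_apply_eq, Matrix.one_apply_eq, map_one]
    · rw [Matrix.one_apply_ne hij, Matrix.one_apply_ne hij, map_zero]
  map_mul' σ τ := by
    refine Matrix.ext fun i j => Tower.ext_proj fun n => ?_
    show r n (σ * τ) i j = _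
    rw [map_mul, Matrix.mul_apply, Matrix.mul_apply, map_sum]
    refine Finset.sum_congr rfl fun l _ => ?_
    rw [map_mul]
    rfl

private theorem mapM_proj_limRep (r : ∀ n, Gal →* M2 (T.obj n))
    (hr : ∀ n, mapM (T.tr n : T.obj (n + 1) →+* T.obj n) (r (n + 1)) = r n) (n : ℕ) :
    mapM (T.proj n : T.lim →+* T.obj n) (limRep r hr) = r n :=
  MonoidHom.ext fun _ => Matrix.ext fun _ _ => rfl

/-- A compatible family of continuous representations has a continuous limit. -/
private theorem isCont_limRep (r : ∀ n, Gal →* M2 (T.obj n))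
    (hr : ∀ n, mapM (T.tr n : T.obj (n + 1) →+* T.obj n) (r (n + 1)) = r n)
    (hc : ∀ n, IsCont (r n)) : IsCont (limRep r hr) := by
  intro m
  rcases m with _ | m
  · refine ⟨⊥, inferInstance, fun σ _ i j => ?_⟩
    rw [pow_zero, Ideal.one_eq_top]
    exact Submodule.mem_top
  · obtain ⟨L, hL, h1⟩ := (hc m).finiteLevel (T.pow_eq_bot m)
    refine ⟨L, hL, fun σ hσ i j => ?_⟩
    rw [Tower.mem_pow_iff, map_sub, sub_eq_zero]
    show r m σ i j = _
    rw [h1 σ hσ]
    by_cases hij : i = j
    · subst hij; rw [Matrix.one_apply_eq, Matrix.one_apply_eq, map_one]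
    · rw [Matrix.one_apply_ne hij, Matrix.one_apply_ne hij, map_zero]

/-! ## Maps out of the limit -/

/-- A local map out of the limit into an algebra of length at most `n + 1` factors through
level `n`. -/
private theorem exists_proj_factor {A : Type} [CommRing A] [IsLocalRing A]
    [Algebra 𝒪 A] (q : T.lim →ₐ[𝒪] A) (n : ℕ) (hq : IsLocalHom (q : T.lim →+* A))
    (hn : maximalIdeal A ^ (n + 1) = ⊥) : ∃ ψ : T.obj n →ₐ[𝒪] A, ψ.comp (T.proj n) = q := by
  have hz : ∀ x, T.proj n x = 0 → q x = 0 := by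
    intro x hx
    have h1 := Ideal.mem_map_of_mem (q : T.lim →+* A) ((T.mem_pow_iff n x).mpr hx)
    rw [Ideal.map_pow] at h1
    have h2 : (maximalIdeal T.lim).map (q : T.lim →+* A) ≤ maximalIdeal A :=
      Ideal.map_le_iff_le_comap.mpr fun a ha => map_nonunit (q : T.lim →+* A) a ha
    have h3 := Ideal.pow_right_mono h2 (n + 1) h1
    rwa [hn, Ideal.mem_bot] at h3
  let e := Ideal.quotientKerAlgEquivOfSurjective (T.proj_surjective n)
  have hI : ∀ x, x ∈ RingHom.ker (T.proj n) → q x = 0 := fun x hx => hz x hx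
  refine ⟨(Ideal.Quotient.liftₐ (RingHom.ker (T.proj n)) q hI).comp e.symm.toAlgHom,
    AlgHom.ext fun x => ?_⟩
  show Ideal.Quotient.liftₐ (RingHom.ker (T.proj n)) q hI (e.symm (T.proj n x)) = q x
  rw [show e.symm (T.proj n x) = Ideal.Quotient.mk _ x from e.symm_apply_eq.mpr rfl]
  rfl

/-- Compatible maps from the levels to the quotients `A ⧸ 𝔪 ^ (n + 1)` of a complete local algebra
glue to a local map out of the limit. -/
private theorem exists_glue {A : Type} [CommRing A] [IsLocalRing A] [Algebra 𝒪 A]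
    [IsAdicComplete (maximalIdeal A) A] (ψ : ∀ n, T.obj n →ₐ[𝒪] A ⧸ maximalIdeal A ^ (n + 1))
    (hψ : ∀ n, (Ideal.Quotient.factorₐ 𝒪 (Ideal.pow_le_pow_right (Nat.le_succ (n + 1)))).comp
      (ψ (n + 1)) = (ψ n).comp (T.tr n)) :
    ∃ φ : T.lim →ₐ[𝒪] A, IsLocalHom (φ : T.lim →+* A) ∧ ∀ n x,
      Ideal.Quotient.mk (maximalIdeal A ^ n) (φ x) =
        Ideal.Quotient.factor (Ideal.pow_le_pow_right (Nat.le_succ n)) (ψ n (T.proj n x)) := by
  -- Push each level to the quotient one step down, so that the maps are compatible.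
  let f : ∀ n, T.lim →ₐ[𝒪] A ⧸ maximalIdeal A ^ n := fun n =>
    (Ideal.Quotient.factorₐ 𝒪 (Ideal.pow_le_pow_right (Nat.le_succ n))).comp
      ((ψ n).comp (T.proj n))
  have hstep : ∀ n (x : T.lim), Ideal.Quotient.factor
      (Ideal.pow_le_pow_right (Nat.le_succ (n + 1))) (ψ (n + 1) (T.proj (n + 1) x)) =
        ψ n (T.proj n x) := by
    intro n x
    rw [← Tower.tr_proj n x]
    exact DFunLike.congr_fun (hψ n) (T.proj (n + 1) x)
  have hf : ∀ {m n : ℕ} (hle : m ≤ n),
      (Ideal.Quotient.factorₐ 𝒪 (Ideal.pow_le_pow_right hle)).comp (f n) = f m := by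
    intro m n hle
    induction n, hle using Nat.le_induction with
    | base =>
      refine AlgHom.ext fun x => ?_
      obtain ⟨a, ha⟩ := Ideal.Quotient.mk_surjective (f m x)
      rw [AlgHom.comp_apply, ← ha]
      rfl
    | succ n hle ih =>
      rw [← ih]
      refine AlgHom.ext fun x => ?_
      show Ideal.Quotient.factor (Ideal.pow_le_pow_right (hle.trans (Nat.le_succ n)))
          (Ideal.Quotient.factor (Ideal.pow_le_pow_right (Nat.le_succ (n + 1)))
            (ψ (n + 1) (T.proj (n + 1) x))) =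
        Ideal.Quotient.factor (Ideal.pow_le_pow_right hle)
          (Ideal.Quotient.factor (Ideal.pow_le_pow_right (Nat.le_succ n)) (ψ n (T.proj n x)))
      rw [← hstep n x]
      obtain ⟨a, ha⟩ := Ideal.Quotient.mk_surjective (ψ (n + 1) (T.proj (n + 1) x))
      rw [← ha]
      rfl
  -- By completeness they glue to `φ`.
  let φ : T.lim →ₐ[𝒪] A := IsAdicComplete.liftAlgHom (maximalIdeal A) f hf
  have hφ : ∀ n x, Ideal.Quotient.mk (maximalIdeal A ^ n) (φ x) = f n x := fun n x =>
    IsAdicComplete.mk_liftAlgHom _ f hf n x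
  -- It is local, as this holds at the first level.
  have hφloc : IsLocalHom (φ : T.lim →+* A) := by
    refine ⟨fun x hx => ?_⟩
    by_contra hnx
    have h0 := (T.mem_maximalIdeal_iff x).mp hnx
    have h1 := hφ 1 x
    have h2 : f 1 x = 0 := by
      show Ideal.Quotient.factor (Ideal.pow_le_pow_right (Nat.le_succ 1)) (ψ 1 (T.proj 1 x)) = 0
      have := hstep 0 x
      rw [h0, map_zero] at this
      exact this
    rw [h2, Ideal.Quotient.eq_zero_iff_mem, pow_one] at h1
    exact h1 hx
  exact ⟨φ, hφloc, hφ⟩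

variable {W : Rigid 𝒪}
  {𝒟 : ∀ ⦃A : Type⦄ [CommRing A] [IsLocalRing A] [Algebra 𝒪 A], GaloisRepAdic A → Prop}

/-! ## The tower of universal deformations: steps 3 and 4 -/

/-- A map from a deformation of level `n + 1` onto a universal one of level `n` has kernel inside
`𝔪 ^ (n + 1)`. -/
private theorem mem_pow_of_apply_eq_zero [Finite (ResidueField 𝒪)] [IsNoetherianRing 𝒪]
    (h𝒟 : GaloisRep.IsDeformationCondition 𝒪 𝒟) {n : ℕ}
    {O : Obj W 𝒟 n} (O' : Obj W 𝒟 (n + 1))
    (huniv : ∀ (A : Type) [CommRing A] [IsLocalRing A] [Algebra 𝒪 A] (hA : IsLevel 𝒪 n A)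
      (r : Gal →* M2 A), Good W 𝒟 hA.resAlg r →
        ∃ φ : O.carrier →ₐ[𝒪] A, mapM (φ : O.carrier →+* A) O.r = r)
    (f : O'.carrier →ₐ[𝒪] O.carrier) (hf : mapM (f : O'.carrier →+* O.carrier) O'.r = O.r)
    {x : O'.carrier} (hx : f x = 0) : x ∈ maximalIdeal O'.carrier ^ (n + 1) := by
  have := O'.level.finite
  have := isLocalRing_quotient_pow (R := O'.carrier) n
  have hQ := isLevel_quotient (A := O'.carrier) O'.level.resAlg n
  let q := Ideal.Quotient.mkₐ 𝒪 (maximalIdeal O'.carrier ^ (n + 1))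
  have hq : Good W 𝒟 hQ.resAlg (mapM (q : _ →+* _) O'.r) :=
    Good.map (hA := O'.level.test) hQ.test h𝒟 O'.good q (O'.level.isLocalHom_algHom q)
  obtain ⟨ψ, hψ⟩ := huniv _ hQ _ hq
  have hcomp : ψ.comp f = q := algHom_eq_of_entries O'.gen (by
    rw [← hψ, ← hf, mapM_mapM]; rfl)
  rw [← Ideal.Quotient.eq_zero_iff_mem]
  show q x = 0
  rw [← hcomp, AlgHom.comp_apply, hx, map_zero]

/-- A representation over the limit with normalised levels is normalised. -/
private theorem isNormal_of_proj {ru : Gal →* M2 T.lim}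
    (h : ∀ n, IsNormal W (mapM (T.proj n : T.lim →+* T.obj n) ru)) : IsNormal W ru := by
  refine ⟨?_, ?_, ?_⟩ <;> refine Tower.ext_proj fun n => ?_ <;>
    rw [← evalC_map] <;> simp only [map_zero, map_one]
  exacts [(h n).1, (h n).2.1, (h n).2.2]

/-- A representation over the limit whose levels satisfy the condition satisfies it. -/
private theorem cond_of_proj [IsNoetherianRing 𝒪] (h𝒟 : GaloisRep.IsDeformationCondition 𝒪 𝒟)
    {ru : Gal →* M2 T.lim} [IsNoetherianRing T.lim] (hru : IsCont ru)
    (hgood : ∀ n, Good W 𝒟 (T.resAlg n) (mapM (T.proj n : T.lim →+* T.obj n) ru)) :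
    𝒟 (toRep ru hru) := by
  have hR : IsResAlg 𝒪 T.lim := T.isResAlg_lim
  refine (h𝒟.iff_forall_surjective hR.isLocalHom hR.residue_surjective _).mpr ?_
  intro B _ _ _ hB q hq _
  have := hB.isArtinian
  obtain ⟨N, hN⟩ := (isArtinianRing_iff_isNilpotent_maximalIdeal B).mp inferInstance
  have hN' : maximalIdeal B ^ (N + 1) = ⊥ := by
    rw [pow_succ, hN]; exact zero_mul _
  obtain ⟨ψ, hψ⟩ := exists_proj_factor q N hq hN'
  have hT : IsLevel 𝒪 N (T.obj N) := ⟨inferInstance, T.resAlg N, T.pow_eq_bot N⟩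
  have h1 := Good.map (hA := hT.test) hB h𝒟 (hgood N) ψ (hT.isLocalHom_algHom ψ)
  have hr : mapM (q : T.lim →+* B) ru =
      mapM (ψ : T.obj N →+* B) (mapM (T.proj N : T.lim →+* T.obj N) ru) := by
    rw [mapM_mapM, ← hψ]; rfl
  exact h𝒟.of_isEquiv hB (isEquiv_symm (isEquiv_trans (isEquiv_baseChangeAlong_toRep _ hq ru hru)
    (isEquiv_toRep_congr hr _ h1.cont))) h1.cond

/-! ## The universal property: step 5 -/

/-- The reductions of a normalised deformation over a complete algebra are good at every level. -/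
private theorem good_quotient [Finite (ResidueField 𝒪)]
    (h𝒟 : GaloisRep.IsDeformationCondition 𝒪 𝒟) {A : Type} [CommRing A] [IsLocalRing A]
    [Algebra 𝒪 A] [IsNoetherianRing A] [IsAdicComplete (maximalIdeal A) A]
    (hA : IsResAlg 𝒪 A) {ρA : GaloisRepAdic A} (hDA : 𝒟 ρA) {rA : Gal →* M2 A} (hcA : IsCont rA)
    (hlift : Lifts W hA rA) (hn : IsNormal W rA) (hEA : ρA.IsEquiv (toRep rA hcA)) {n : ℕ}
    [IsLocalRing (A ⧸ maximalIdeal A ^ (n + 1))] :
    Good W 𝒟 (isLevel_quotient hA n).resAlg
      (mapM (Ideal.Quotient.mkₐ 𝒪 (maximalIdeal A ^ (n + 1)) :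
        A →+* A ⧸ maximalIdeal A ^ (n + 1)) rA) :=
  have hmk : IsLocalHom (Ideal.Quotient.mkₐ 𝒪 (maximalIdeal A ^ (n + 1)) :
      A →+* A ⧸ maximalIdeal A ^ (n + 1)) :=
    IsLocalHom.of_surjective _ Ideal.Quotient.mk_surjective
  ⟨hcA.map _ hmk, hlift.map _ _ hmk, hn.map _,
    h𝒟.of_isEquiv (isLevel_quotient hA n).test
      (isEquiv_trans ⟨hEA.some.baseChangeAlong _ hmk⟩
        (isEquiv_baseChangeAlong_toRep _ hmk rA hcA))
      ((h𝒟.iff_forall_surjective hA.isLocalHom hA.residue_surjective ρA).mp hDA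
        (isLevel_quotient hA n).test _ hmk Ideal.Quotient.mk_surjective)⟩

/-- Local maps out of the limit into a separated algebra which agree on a representation whose
levels generate are equal. -/
private theorem eq_of_mapM_eq [Finite (ResidueField 𝒪)] [IsNoetherianRing 𝒪] {A : Type}
    [CommRing A] [IsLocalRing A] [Algebra 𝒪 A] [IsNoetherianRing A] [IsHausdorff (maximalIdeal A) A]
    (hA : IsResAlg 𝒪 A) {ru : Gal →* M2 T.lim}
    (hgen : ∀ n, Algebra.adjoin 𝒪 (entries (mapM (T.proj n : T.lim →+* T.obj n) ru)) = ⊤)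
    {φ φ' : T.lim →ₐ[𝒪] A} (hφ : IsLocalHom (φ : T.lim →+* A))
    (hφ' : IsLocalHom (φ' : T.lim →+* A))
    (h : mapM (φ' : T.lim →+* A) ru = mapM (φ : T.lim →+* A) ru) : φ' = φ := by
  refine AlgHom.ext fun x => ?_
  refine (IsHausdorff.eq_iff_smodEq (I := maximalIdeal A)).mpr fun n => ?_
  rw [SModEq.sub_mem, smul_eq_mul, Ideal.mul_top]
  refine Ideal.pow_le_pow_right (Nat.le_succ n) ?_
  rw [← Ideal.Quotient.eq]
  have := isLocalRing_quotient_pow (R := A) n
  let mk : A →ₐ[𝒪] A ⧸ maximalIdeal A ^ (n + 1) := Ideal.Quotient.mkₐ 𝒪 _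
  have hmk : IsLocalHom (mk : A →+* A ⧸ maximalIdeal A ^ (n + 1)) :=
    IsLocalHom.of_surjective _ Ideal.Quotient.mk_surjective
  obtain ⟨ψ', hψ'⟩ := exists_proj_factor (mk.comp φ') n
    ⟨fun a ha => hφ'.map_nonunit a (hmk.map_nonunit _ ha)⟩ (isLevel_quotient hA n).pow_eq_bot
  obtain ⟨ψ, hψ⟩ := exists_proj_factor (mk.comp φ) n
    ⟨fun a ha => hφ.map_nonunit a (hmk.map_nonunit _ ha)⟩ (isLevel_quotient hA n).pow_eq_bot
  have : ψ' = ψ := algHom_eq_of_entries (hgen n) (by
    refine MonoidHom.ext fun σ => Matrix.ext fun i j => ?_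
    show ψ' (T.proj n (ru σ i j)) = ψ (T.proj n (ru σ i j))
    rw [← AlgHom.comp_apply, ← AlgHom.comp_apply, hψ', hψ]
    show mk (φ' (ru σ i j)) = mk (φ (ru σ i j))
    exact congrArg mk (congr_fun (congr_fun (DFunLike.congr_fun h σ) i) j))
  rw [this] at hψ'
  exact DFunLike.congr_fun (hψ'.symm.trans hψ) x

/-- Maps from the levels carrying a representation over the limit to the reductions of `rA` glue
to a local map carrying it to `rA`. -/
private theorem exists_algHom_mapM_eq {A : Type} [CommRing A] [IsLocalRing A] [Algebra 𝒪 A]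
    [IsAdicComplete (maximalIdeal A) A] {ru : Gal →* M2 T.lim} {rA : Gal →* M2 A}
    (hgen : ∀ n, Algebra.adjoin 𝒪 (entries (mapM (T.proj n : T.lim →+* T.obj n) ru)) = ⊤)
    (ψ : ∀ n, T.obj n →ₐ[𝒪] A ⧸ maximalIdeal A ^ (n + 1))
    (hψ : ∀ n, mapM (ψ n : T.obj n →+* A ⧸ maximalIdeal A ^ (n + 1))
      (mapM (T.proj n : T.lim →+* T.obj n) ru) = mapM (Ideal.Quotient.mkₐ 𝒪
        (maximalIdeal A ^ (n + 1)) : A →+* A ⧸ maximalIdeal A ^ (n + 1)) rA) :
    ∃ φ : T.lim →ₐ[𝒪] A, IsLocalHom (φ : T.lim →+* A) ∧ mapM (φ : T.lim →+* A) ru = rA := by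
  have hent : ∀ n σ i j, ψ n (T.proj n (ru σ i j)) = Ideal.Quotient.mk _ (rA σ i j) :=
    fun n σ i j => congr_fun (congr_fun (DFunLike.congr_fun (hψ n) σ) i) j
  obtain ⟨φ, hφloc, hφ⟩ := exists_glue (T := T) ψ fun n => algHom_eq_of_entries (hgen (n + 1)) (by
    refine MonoidHom.ext fun σ => Matrix.ext fun i j => ?_
    show Ideal.Quotient.factor (Ideal.pow_le_pow_right (Nat.le_succ (n + 1)))
      (ψ (n + 1) (T.proj (n + 1) (ru σ i j))) = ψ n (T.tr n (T.proj (n + 1) (ru σ i j)))
    rw [hent, Tower.tr_proj, hent]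
    rfl)
  refine ⟨φ, hφloc, MonoidHom.ext fun σ => Matrix.ext fun i j => ?_⟩
  refine (IsHausdorff.eq_iff_smodEq (I := maximalIdeal A)).mpr fun n => ?_
  rw [SModEq.sub_mem, smul_eq_mul, Ideal.mul_top, ← Ideal.Quotient.eq]
  show Ideal.Quotient.mk (maximalIdeal A ^ n) (φ (ru σ i j)) = _
  rw [hφ, hent]
  rfl

/-! ## The deformation ring -/

/-- An absolutely irreducible residual representation has a universal deformation ring for a
deformation condition with finite tangent space. -/
theorem exists_deformationRingData (𝒪 : Type) [CommRing 𝒪] [IsDomain 𝒪]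
    [IsDiscreteValuationRing 𝒪] [IsAdicComplete (maximalIdeal 𝒪) 𝒪]
    [Finite (ResidueField 𝒪)] (ρbar : ResidualGaloisRep (ResidueField 𝒪))
    (𝒟 : ∀ ⦃A : Type⦄ [CommRing A] [IsLocalRing A] [Algebra 𝒪 A], GaloisRepAdic A → Prop)
    (habs : ρbar.IsAbsolutelyIrreducible)
    (h𝒟 : GaloisRep.IsDeformationCondition 𝒪 𝒟)
    (hbar : 𝒟 (GaloisRepAdic.ofResidualGaloisRep ρbar))
    (hfin : GaloisRep.TangentFinite 𝒪 ρbar 𝒟) :
    Nonempty (GaloisRep.DeformationRingData 𝒪 ρbar 𝒟) := by
  let bb : Basis (Fin 2) (ResidueField 𝒪) ρbar.V :=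
    Module.finBasisOfFinrankEq (ResidueField 𝒪) ρbar.V ρbar.finrank_eq
  -- Step 1: rigidifying data. Step 2: the universal objects `O n` of the finite levels.
  obtain ⟨W, hW⟩ := exists_rigid ρbar habs bb
  choose O huniv using exists_levels (W := W) hW h𝒟 hbar hfin
  -- Step 3: the transition maps and the tower `T`.
  have htr : ∀ n, ∃ φ : (O (n + 1)).carrier →ₐ[𝒪] (O n).carrier,
      mapM (φ : _ →+* (O n).carrier) (O (n + 1)).r = (O n).r := fun n =>
    huniv (n + 1) (O n).carrier (O n).level.succ (O n).r (O n).good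
  choose tr htr using htr
  have hfinO : ∀ n, Finite (O n).carrier := fun n => (O n).level.finite
  have hker : ∀ n x, tr n x = 0 → x ∈ maximalIdeal (O (n + 1)).carrier ^ (n + 1) := fun n _ hx =>
    mem_pow_of_apply_eq_zero h𝒟 (O (n + 1)) (huniv n) (tr n) (htr n) hx
  let T : Tower 𝒪 :=
    { obj := fun n => (O n).carrier
      tr := tr
      tr_surjective := fun n => surjective_of_entries (O n).gen (tr n) (htr n)
      resAlg := fun n => (O n).level.resAlg
      pow_eq_bot := fun n => (O n).level.pow_eq_bot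
      ker_tr := hker }
  -- Step 4: the universal matrices `ru` over the limit and the deformation `ρu`.
  let ru : Gal →* M2 T.lim := limRep (T := T) (fun n => (O n).r) htr
  have hproj : ∀ n, mapM (T.proj n : T.lim →+* (O n).carrier) ru = (O n).r :=
    mapM_proj_limRep (T := T) (fun n => (O n).r) htr
  have hru : IsCont ru := isCont_limRep (T := T) (fun n => (O n).r) htr fun n => (O n).good.cont
  have hR : IsResAlg 𝒪 T.lim := T.isResAlg_lim
  have := hR.isLocalHom
  have : IsNoetherianRing T.lim := T.isNoetherianRing_lim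
  have hlifts : Lifts W hR ru := by
    refine Lifts.of_map (hB := (O 0).level.resAlg) (T.proj 0) (T.isLocalHom_proj 0) ?_
    rw [hproj]; exact (O 0).good.lifts
  have hnormal : IsNormal W ru := isNormal_of_proj fun n => by rw [hproj]; exact (O n).good.normal
  let ρu : GaloisRepAdic T.lim := toRep ru hru
  refine ⟨
    { R := T.lim
      residue_surjective := hR.residue_surjective
      absIrr := habs
      ρ := ρu
      isOfType := ?_
      residual_isEquiv := residual_isEquiv_of_lifts hW hR ρu (Pi.basisFun _ _)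
        ((matOf_toRep ru hru).symm ▸ hlifts)
      universal := ?_ }⟩
  · exact cond_of_proj (W := W) h𝒟 hru fun n => by rw [hproj]; exact (O n).good
  · -- Step 5: a deformation over `A` has a normalised form `rA`.
    intro A _ _ _ _ _ _ hAsurj ρA hDA heA
    have hA : IsResAlg 𝒪 A := ⟨inferInstance, hAsurj⟩
    obtain ⟨b, hb⟩ := exists_lifts_basis hW hA ρA heA
    obtain ⟨P, hP, hn⟩ := exists_normal hb
    set rA := conjM P (matOf ρA b)
    have hcA : IsCont rA := (isCont_matOf ρA b).conj P
    have hEA : ρA.IsEquiv (toRep rA hcA) :=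
      isEquiv_trans (isEquiv_toRep_matOf ρA b) (isEquiv_conj _ P)
    have : ∀ n, IsLocalRing (A ⧸ maximalIdeal A ^ (n + 1)) := fun n => isLocalRing_quotient_pow n
    have hQ : ∀ n, IsLevel 𝒪 n (A ⧸ maximalIdeal A ^ (n + 1)) := fun n => isLevel_quotient hA n
    have hgA : ∀ n, Good W 𝒟 (hQ n).resAlg
        (mapM (Ideal.Quotient.mkₐ 𝒪 (maximalIdeal A ^ (n + 1)) :
          A →+* A ⧸ maximalIdeal A ^ (n + 1)) rA) := fun _ =>
      good_quotient h𝒟 hA hDA hcA hP hn hEA
    -- Its reductions are classified by the levels; the maps `ψ n` glue to `φ`.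
    choose ψ hψ using fun n => huniv n _ (hQ n) _ (hgA n)
    have hgen : ∀ n, Algebra.adjoin 𝒪 (entries (mapM (T.proj n : T.lim →+* T.obj n) ru)) = ⊤ :=
      fun n => by rw [hproj]; exact (O n).gen
    obtain ⟨φ, hφloc, hφr⟩ := exists_algHom_mapM_eq (rA := rA) hgen ψ fun n => by
      rw [hproj]; exact hψ n
    refine ⟨φ, ⟨hφloc, isEquiv_trans (isEquiv_trans (isEquiv_baseChangeAlong_toRep _ hφloc ru hru)
      (isEquiv_toRep_congr hφr _ hcA)) (isEquiv_symm hEA)⟩, ?_⟩
    -- Uniqueness: any such map carries `ru` to the normalised form `rA`.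
    rintro φ' ⟨hφ'loc, he'⟩
    have hl' : Lifts W hA (mapM (φ' : T.lim →+* A) ru) := hlifts.map hA φ' hφ'loc
    have heq : mapM (φ' : T.lim →+* A) ru = rA :=
      eq_of_isEquiv hl' hP (hnormal.map φ') hn (hc := hru.map _ hφ'loc) (hc' := hcA)
        (isEquiv_trans (isEquiv_symm (isEquiv_baseChangeAlong_toRep _ hφ'loc ru hru))
          (isEquiv_trans he' hEA))
    exact eq_of_mapM_eq hA hgen hφloc hφ'loc (heq.trans hφr.symm)

end Fermat.Agent.Deform
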